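import Fermat.Agent.S59.MFree.H565.FixedPoint

/-!
# S59 / M-FREE, leaf (E): the norm criterion over a field of characteristic `p` (helper565)

`k` a field with `(p : k) = 0`, `D` a finite `p`-group, `ρ` a representation of `D` on a
finite-dimensional `k`-vector space `W` with `ker N ⊆ I_D W`.  Then `W` has a `k`-basis of the
form `ρ d (b i)` (`exists_basis_of_ker_norm_le`).

* `sup_augSpan_eq_top` (Nakayama for `k[D]`): a `D`-stable subspace `U` with `U + I_D W = W` is `W`;
* `linearIndependent_of_ker_norm_le`: lifts of a basis of the coinvariants give an independent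
  family `ρ d (v i)`.
-/

set_option autoImplicit false

namespace Fermat.Agent.S59.MFree.H565

section Field

variable {p : ℕ} [Fact p.Prime] {D : Type*} [Group D] [Fintype D]
  {k W : Type*} [Field k] [AddCommGroup W] [Module k W]

/-- `I_D W`: the span of the `ρ d y - y`. -/
def augSpan (ρ : Representation k D W) : Submodule k W :=
  Submodule.span k {w | ∃ d y, w = ρ d y - y}

theorem sub_mem_augSpan (ρ : Representation k D W) (d : D) (y : W) :
    ρ d y - y ∈ augSpan ρ := Submodule.subset_span ⟨d, y, rfl⟩

/-- **Nakayama for `k[D]`**: a `D`-stable subspace `U` with `U + I_D W = W` is everything. -/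
theorem eq_top_of_sup_augSpan_eq_top (hD : IsPGroup p D) (hp0 : (p : k) = 0)
    (ρ : Representation k D W) (U : Submodule k W) (hU : ∀ d, ∀ x ∈ U, ρ d x ∈ U)
    (h : U ⊔ augSpan ρ = ⊤) : U = ⊤ := by
  by_contra hne
  obtain ⟨f, hf0, hfU⟩ := Submodule.exists_dual_map_eq_bot_of_lt_top (lt_top_iff_ne_top.mpr hne)
    (inferInstance : Module.Projective k (W ⧸ U))
  have hfU' : ∀ x ∈ U, f x = 0 := fun x hx => by
    have : f x ∈ U.map f := ⟨x, hx, rfl⟩
    rw [hfU] at this
    exact this
  -- the functionals vanishing on `U`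
  let S : AddSubgroup (Module.Dual k W) :=
    { carrier := {g | ∀ x ∈ U, g x = 0}
      zero_mem' := fun x _ => rfl
      add_mem' := fun {g g'} hg hg' x hx => by
        show g x + g' x = 0
        rw [hg x hx, hg' x hx, add_zero]
      neg_mem' := fun {g} hg x hx => by
        show -(g x) = 0
        rw [hg x hx, neg_zero] }
  have hS : ∀ d, ∀ g ∈ S, ρ.dual d g ∈ S := by
    intro d g hg x hx
    rw [Representation.dual_apply]
    exact hg _ (hU d⁻¹ x hx)
  have hp : ∀ g : Module.Dual k W, p • g = 0 := fun g => by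
    rw [← Nat.cast_smul_eq_nsmul k, hp0, zero_smul]
  obtain ⟨g, hgS, hg0, hgfix⟩ := exists_fixed_ne_zero hD ρ.dual hp S hS f hfU' hf0
  apply hg0
  have hgρ : ∀ d x, g (ρ d x) = g x := fun d x => by
    have h1 := congrArg (fun φ : Module.Dual k W => φ x) (hgfix d⁻¹)
    simp only [Representation.dual_apply, inv_inv] at h1
    exact h1
  have hker : U ⊔ augSpan ρ ≤ LinearMap.ker g := by
    refine sup_le (fun x hx => hgS x hx) ?_
    refine Submodule.span_le.mpr ?_
    rintro _ ⟨d, y, rfl⟩
    show g (ρ d y - y) = 0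
    rw [map_sub, hgρ, sub_self]
  rw [h, top_le_iff, LinearMap.ker_eq_top] at hker
  exact hker

end Field

section Indep

variable {p : ℕ} [Fact p.Prime] {D : Type*} [Group D] [Fintype D]
  {k W : Type*} [Field k] [AddCommGroup W] [Module k W]

/-- Left translation on `D × Fin n → k`. -/
def transRep (D : Type*) [Group D] (k : Type*) [Field k] (n : ℕ) :
    Representation k D (D × Fin n → k) where
  toFun e := LinearMap.funLeft k k (fun z : D × Fin n => (e⁻¹ * z.1, z.2))
  map_one' := by
    ext c z
    simp [LinearMap.funLeft]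
  map_mul' e e' := by
    ext c z
    simp [LinearMap.funLeft, mul_assoc]

@[simp]
theorem transRep_apply (n : ℕ) (e : D) (c : D × Fin n → k) (z : D × Fin n) :
    transRep D k n e c z = c (e⁻¹ * z.1, z.2) := rfl

theorem sum_transRep_smul (ρ : Representation k D W) {n : ℕ} (v : Fin n → W) (e : D)
    (c : D × Fin n → k) :
    ∑ z : D × Fin n, transRep D k n e c z • ρ z.1 (v z.2) =
      ρ e (∑ z : D × Fin n, c z • ρ z.1 (v z.2)) := by
  rw [map_sum]
  refine Fintype.sum_equiv ((Equiv.mulLeft e⁻¹).prodCongr (Equiv.refl (Fin n))) _ _ ?_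
  rintro ⟨d, i⟩
  simp only [transRep_apply, Equiv.prodCongr_apply, Equiv.coe_mulLeft, Equiv.refl_apply,
    Prod.map_apply, map_smul]
  congr 1
  rw [← Module.End.mul_apply, ← map_mul, mul_inv_cancel_left]

/-- **Independence.**  If `ker N ⊆ I_D W` and the `v i` are independent modulo `I_D W`, then the
`ρ d (v i)` are linearly independent. -/
theorem linearIndependent_of_ker_norm_le (hD : IsPGroup p D) (hp0 : (p : k) = 0)
    (ρ : Representation k D W) (hker : ∀ x : W, ∑ d, ρ d x = 0 → x ∈ augSpan ρ)
    {n : ℕ} (v : Fin n → W)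
    (hv : LinearIndependent k (fun i => (augSpan ρ).mkQ (v i))) :
    LinearIndependent k (fun z : D × Fin n => ρ z.1 (v z.2)) := by
  classical
  rw [Fintype.linearIndependent_iff]
  intro c hc
  by_contra hne
  have hc0 : c ≠ 0 := fun h => hne (fun z => by rw [h]; rfl)
  -- the relations
  let S : AddSubgroup (D × Fin n → k) :=
    { carrier := {c | ∑ z : D × Fin n, c z • ρ z.1 (v z.2) = 0}
      zero_mem' := by simp
      add_mem' := fun {a b} ha hb => by
        show ∑ z : D × Fin n, (a + b) z • ρ z.1 (v z.2) = 0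
        simp only [Pi.add_apply, add_smul, Finset.sum_add_distrib]
        rw [ha, hb, add_zero]
      neg_mem' := fun {a} ha => by
        show ∑ z : D × Fin n, (-a) z • ρ z.1 (v z.2) = 0
        simp only [Pi.neg_apply, neg_smul, Finset.sum_neg_distrib]
        rw [ha, neg_zero] }
  have hS : ∀ e, ∀ a ∈ S, transRep D k n e a ∈ S := by
    intro e a ha
    show ∑ z : D × Fin n, transRep D k n e a z • ρ z.1 (v z.2) = 0
    rw [sum_transRep_smul, ha, map_zero]
  have hp : ∀ a : D × Fin n → k, p • a = 0 := fun a => by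
    rw [← Nat.cast_smul_eq_nsmul k, hp0, zero_smul]
  obtain ⟨a, haS, ha0, hafix⟩ := exists_fixed_ne_zero hD (transRep D k n) hp S hS c hc hc0
  -- a fixed relation is constant along `D`
  have hconst : ∀ d i, a (d, i) = a (1, i) := fun d i => by
    have h1 := congrFun (hafix d) (d, i)
    rw [transRep_apply] at h1
    simp only [inv_mul_cancel] at h1
    exact h1.symm
  have hN : ∑ d, ρ d (∑ i, a (1, i) • v i) = 0 := by
    have h2 : ∑ z : D × Fin n, a z • ρ z.1 (v z.2) = 0 := haS
    rw [Fintype.sum_prod_type] at h2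
    rw [← h2]
    refine Finset.sum_congr rfl fun d _ => ?_
    rw [map_sum]
    refine Finset.sum_congr rfl fun i _ => ?_
    rw [map_smul, hconst d i]
  have hmem := hker _ hN
  have h3 : ∑ i, a (1, i) • (augSpan ρ).mkQ (v i) = 0 := by
    have h5 : (augSpan ρ).mkQ (∑ i, a (1, i) • v i) = 0 :=
      (Submodule.Quotient.mk_eq_zero (augSpan ρ)).mpr hmem
    rw [← h5, map_sum]
    refine Finset.sum_congr rfl fun i _ => ?_
    rw [map_smul]
  have h4 := (Fintype.linearIndependent_iff.mp hv) (fun i => a (1, i)) h3
  apply ha0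
  funext z
  obtain ⟨d, i⟩ := z
  rw [hconst d i, h4 i]
  rfl

/-- **The norm criterion over a field.** -/
theorem exists_basis_of_ker_norm_le [Module.Finite k W] (hD : IsPGroup p D) (hp0 : (p : k) = 0)
    (ρ : Representation k D W) (hker : ∀ x : W, ∑ d, ρ d x = 0 → x ∈ augSpan ρ) :
    ∃ (n : ℕ) (b : Fin n → W),
      LinearIndependent k (fun z : D × Fin n => ρ z.1 (b z.2)) ∧
      Submodule.span k (Set.range fun z : D × Fin n => ρ z.1 (b z.2)) = ⊤ := by
  classical
  let bas := Module.finBasis k (W ⧸ augSpan ρ)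
  let n := Module.finrank k (W ⧸ augSpan ρ)
  have hlift : ∀ i : Fin n, ∃ w : W, (augSpan ρ).mkQ w = bas i := fun i =>
    Submodule.mkQ_surjective _ _
  choose v hv using hlift
  refine ⟨n, v, ?_, ?_⟩
  · apply linearIndependent_of_ker_norm_le hD hp0 ρ hker v
    have : (fun i => (augSpan ρ).mkQ (v i)) = bas := funext hv
    rw [this]
    exact bas.linearIndependent
  · apply eq_top_of_sup_augSpan_eq_top hD hp0 ρ
    · intro d x hx
      induction hx using Submodule.span_induction with
      | mem x hx =>
        obtain ⟨⟨e, i⟩, rfl⟩ := hx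
        refine Submodule.subset_span ⟨(d * e, i), ?_⟩
        simp [map_mul]
      | zero => simp
      | add x y _ _ hx hy => rw [map_add]; exact Submodule.add_mem _ hx hy
      | smul a x _ hx => rw [map_smul]; exact Submodule.smul_mem _ a hx
    · rw [eq_top_iff]
      intro x _
      -- `x = ∑ c_i v_i` modulo `I_D W`
      have hx : (augSpan ρ).mkQ x = ∑ i, bas.repr ((augSpan ρ).mkQ x) i • bas i :=
        (bas.sum_repr _).symm
      set y : W := ∑ i, bas.repr ((augSpan ρ).mkQ x) i • v i with hy
      have hxy : x - y ∈ augSpan ρ := by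
        rw [← Submodule.Quotient.mk_eq_zero, Submodule.Quotient.mk_sub, sub_eq_zero]
        show (augSpan ρ).mkQ x = (augSpan ρ).mkQ y
        rw [hy, map_sum, hx]
        refine Finset.sum_congr rfl fun i _ => ?_
        rw [map_smul, hv, ← hx]
      have hyU : y ∈ Submodule.span k (Set.range fun z : D × Fin n => ρ z.1 (v z.2)) := by
        refine Submodule.sum_mem _ fun i _ => Submodule.smul_mem _ _ ?_
        refine Submodule.subset_span ⟨(1, i), ?_⟩
        simp
      have : x = y + (x - y) := by abel
      rw [this]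
      exact Submodule.add_mem _ (Submodule.mem_sup_left hyU) (Submodule.mem_sup_right hxy)

end Indep

end Fermat.Agent.S59.MFree.H565
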