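import Fermat.Agent.S59.MFree.Spec
import Fermat.Agent.S59.MFree.H565.NormField

/-!
# S59 / M-FREE, leaf (E): the norm criterion (helper565)

`normCriterion : NormCriterionStatement` — a finite free module `V` over a discrete valuation ring
`O` of residue characteristic `p`, with an action of a finite `p`-group `D` such that `V^D = N V`
and `ker N = I_D V`, has an `O`-basis of the form `ρ d (b i)`.

Proof: reduce modulo the maximal ideal (`k ⊗[O] V`), where `ker N̄ ⊆ I_D V̄`; apply the norm
criterion over the residue field (`NormField.lean`); lift by Nakayama and flatness.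
-/

set_option autoImplicit false

namespace Fermat.Agent.S59.MFree.H565

open IsLocalRing TensorProduct

universe u

section Reduce

variable {O : Type u} [CommRing O] [IsLocalRing O] {D : Type*} [Group D]
  {V : Type u} [AddCommGroup V] [Module O V]

/-- The reduction of a representation modulo the maximal ideal. -/
noncomputable def redRep (ρ : Representation O D V) :
    Representation (ResidueField O) D (ResidueField O ⊗[O] V) where
  toFun d := (ρ d).baseChange (ResidueField O)
  map_one' := by rw [map_one]; exact LinearMap.baseChange_one O V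
  map_mul' d e := by rw [map_mul]; exact LinearMap.baseChange_mul _ _

@[simp]
theorem redRep_tmul (ρ : Representation O D V) (d : D) (a : ResidueField O) (x : V) :
    redRep ρ d (a ⊗ₜ[O] x) = a ⊗ₜ[O] ρ d x := by
  simp [redRep]

theorem redRep_mk (ρ : Representation O D V) (d : D) (x : V) :
    redRep ρ d (TensorProduct.mk O (ResidueField O) V 1 x) =
      TensorProduct.mk O (ResidueField O) V 1 (ρ d x) := by
  simp

end Reduce

section Main

variable {p : ℕ} [Fact p.Prime] {O : Type u} [CommRing O] [IsDomain O]
  [IsDiscreteValuationRing O] {D : Type*} [Group D] [Fintype D]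
  {V : Type u} [AddCommGroup V] [Module O V] [Module.Free O V]

theorem natCast_residueField_eq_zero (hp : ¬ IsUnit (p : O)) :
    ((p : ℕ) : ResidueField O) = 0 := by
  have h : residue O (p : O) = 0 := (residue_eq_zero_iff _).mpr hp
  rw [← h, map_natCast]

theorem mk_smul_irreducible {ϖ : O} (hϖ : Irreducible ϖ) (z : V) :
    TensorProduct.mk O (ResidueField O) V 1 (ϖ • z) = 0 := by
  have h0 : residue O ϖ = 0 := (residue_eq_zero_iff _).mpr hϖ.not_isUnit
  rw [map_smul, TensorProduct.mk_apply, TensorProduct.smul_tmul', Algebra.smul_def, mul_one]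
  have : algebraMap O (ResidueField O) ϖ = residue O ϖ := rfl
  rw [this, h0, TensorProduct.zero_tmul]

theorem rho_norm (ρ : Representation O D V) (d : D) (x : V) :
    ρ d (∑ e, ρ e x) = ∑ e, ρ e x := by
  rw [map_sum]
  refine Fintype.sum_equiv (Equiv.mulLeft d) _ _ fun e => ?_
  rw [Equiv.coe_mulLeft, map_mul]
  rfl

/-- Modulo the maximal ideal, `ker N̄ ⊆ I_D V̄`. -/
theorem ker_norm_redRep (ρ : Representation O D V)
    (hinv : ∀ x : V, (∀ d, ρ d x = x) → ∃ z, x = ∑ d, ρ d z)
    (hker : ∀ x : V, ∑ d, ρ d x = 0 → x ∈ Submodule.span O {w | ∃ d y, w = ρ d y - y})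
    (x' : ResidueField O ⊗[O] V) (hx' : ∑ d, redRep ρ d x' = 0) :
    x' ∈ augSpan (redRep ρ) := by
  obtain ⟨x, rfl⟩ := TensorProduct.mk_surjective O V (ResidueField O)
    Ideal.Quotient.mk_surjective x'
  obtain ⟨ϖ, hϖ⟩ := IsDiscreteValuationRing.exists_irreducible O
  -- `N x ∈ ϖ V`
  have h1 : TensorProduct.mk O (ResidueField O) V 1 (∑ d, ρ d x) = 0 := by
    rw [map_sum, ← hx']
    refine Finset.sum_congr rfl fun d _ => ?_
    rw [redRep_mk]
  have h2 : (∑ d, ρ d x) ∈ (maximalIdeal O) • (⊤ : Submodule O V) := by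
    rw [← LinearMap.ker_tensorProductMk]
    exact h1
  rw [hϖ.maximalIdeal_eq, Submodule.ideal_span_singleton_smul,
    Submodule.mem_smul_pointwise_iff_exists] at h2
  obtain ⟨y, -, hy⟩ := h2
  -- `y` is invariant
  have hyinv : ∀ d, ρ d y = y := by
    intro d
    have h3 : ϖ • (ρ d y - y) = 0 := by
      rw [smul_sub, ← map_smul, hy, rho_norm, sub_self]
    rcases smul_eq_zero.mp h3 with h | h
    · exact absurd h hϖ.ne_zero
    · exact sub_eq_zero.mp h
  obtain ⟨z, hz⟩ := hinv y hyinv
  have h4 : ∑ d, ρ d (x - ϖ • z) = 0 := by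
    simp only [map_sub, map_smul, Finset.sum_sub_distrib, ← Finset.smul_sum]
    rw [← hz, hy, sub_self]
  have h5 := hker _ h4
  have h6 : TensorProduct.mk O (ResidueField O) V 1 x =
      TensorProduct.mk O (ResidueField O) V 1 (x - ϖ • z) := by
    rw [map_sub, mk_smul_irreducible hϖ, sub_zero]
  rw [h6]
  have key : ∀ w ∈ Submodule.span O {w : V | ∃ d y, w = ρ d y - y},
      TensorProduct.mk O (ResidueField O) V 1 w ∈ augSpan (redRep ρ) := by
    intro w hw
    induction hw using Submodule.span_induction with
    | mem w hw =>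
      obtain ⟨d, y', rfl⟩ := hw
      rw [map_sub, ← redRep_mk]
      exact sub_mem_augSpan _ _ _
    | zero => rw [map_zero]; exact Submodule.zero_mem _
    | add w w' _ _ hw hw' => rw [map_add]; exact Submodule.add_mem _ hw hw'
    | smul a w _ hw =>
      rw [map_smul, ← algebraMap_smul (ResidueField O) a]
      exact Submodule.smul_mem _ _ hw
  exact key _ h5

end Main

/-- **Leaf (E): the norm criterion.** -/
theorem normCriterion : NormCriterionStatement.{u} := by
  intro p _ O _ _ _ hp D _ _ hcard V _ _ _ _ ρ hinv hker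
  obtain ⟨a, ha⟩ := hcard
  have hD : IsPGroup p D := IsPGroup.of_card (n := a) (by rw [Nat.card_eq_fintype_card]; exact ha)
  have hp0 : ((p : ℕ) : ResidueField O) = 0 := natCast_residueField_eq_zero hp
  obtain ⟨n, b', hli, hsp⟩ := exists_basis_of_ker_norm_le hD hp0 (redRep ρ)
    (ker_norm_redRep ρ hinv hker)
  have hlift : ∀ i, ∃ v : V, TensorProduct.mk O (ResidueField O) V 1 v = b' i := fun i =>
    TensorProduct.mk_surjective O V (ResidueField O) Ideal.Quotient.mk_surjective _
  choose b hb using hlift
  have hcomp : (TensorProduct.mk O (ResidueField O) V 1 ∘ fun z : D × Fin n => ρ z.1 (b z.2)) =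
      fun z : D × Fin n => redRep ρ z.1 (b' z.2) := by
    funext z
    rw [Function.comp_apply, ← redRep_mk, hb]
  refine ⟨n, b, ?_, ?_⟩
  · apply Module.IsLocalRing.linearIndependent_of_flat
    rw [hcomp]
    exact hli
  · refine IsLocalRing.span_eq_top_of_tmul_eq_basis _ (Module.Basis.mk hli hsp.ge) fun z => ?_
    rw [Module.Basis.mk_apply]
    have := congrFun hcomp z
    exact this

end Fermat.Agent.S59.MFree.H565
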