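import Mathlib

/-!
# S59 / M-FREE, leaf (E): the fixed point lemma for `p`-groups on `p`-torsion modules (helper565)

`exists_fixed_ne_zero` : a finite `p`-group `D` acting linearly on a module `W` killed by `p`; every
nonzero `D`-stable additive subgroup `S` of `W` contains a nonzero `D`-fixed vector.
-/

set_option autoImplicit false

namespace Fermat.Agent.S59.MFree.H565

open MulAction

section FP

variable {p : ℕ} [Fact p.Prime] {D : Type*} [Group D] [Finite D]
  {k W : Type*} [CommRing k] [AddCommGroup W] [Module k W]

/-- **Fixed point lemma.**  `D` a finite `p`-group, `ρ` a representation on a module killed by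
`p`, `S` a `D`-stable additive subgroup with a nonzero element: then `S` contains a nonzero
`D`-fixed vector. -/
theorem exists_fixed_ne_zero (hD : IsPGroup p D) (ρ : Representation k D W)
    (hp : ∀ x : W, p • x = 0) (S : AddSubgroup W) (hS : ∀ d, ∀ x ∈ S, ρ d x ∈ S)
    (w : W) (hwS : w ∈ S) (hw : w ≠ 0) :
    ∃ x ∈ S, x ≠ 0 ∧ ∀ d, ρ d x = x := by
  classical
  -- the ℤ-span of the orbit of `w`
  let s : Set W := Set.range fun d : D => ρ d w
  have hsfin : s.Finite := Set.finite_range _
  let H : Submodule ℤ W := Submodule.span ℤ s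
  have hwH : w ∈ H := Submodule.subset_span ⟨1, by simp⟩
  have hHS : ∀ x ∈ H, x ∈ S := by
    intro x hx
    induction hx using Submodule.span_induction with
    | mem x hx =>
      obtain ⟨d, rfl⟩ := hx
      exact hS d w hwS
    | zero => exact S.zero_mem
    | add x y _ _ hx hy => exact S.add_mem hx hy
    | smul a x _ hx => exact S.zsmul_mem hx a
  have hHstab : ∀ d, ∀ x ∈ H, ρ d x ∈ H := by
    intro d x hx
    induction hx using Submodule.span_induction with
    | mem x hx =>
      obtain ⟨e, rfl⟩ := hx
      refine Submodule.subset_span ⟨d * e, ?_⟩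
      simp [map_mul]
    | zero => simp
    | add x y _ _ hx hy => rw [map_add]; exact H.add_mem hx hy
    | smul a x _ hx => rw [map_zsmul]; exact H.smul_mem a hx
  haveI : Module.Finite ℤ H := Module.Finite.span_of_finite ℤ hsfin
  have htors : Module.IsTorsion ℤ H := by
    intro x
    refine ⟨⟨(p : ℤ), mem_nonZeroDivisors_of_ne_zero (by exact_mod_cast (Fact.out : p.Prime).ne_zero)⟩, ?_⟩
    apply Subtype.ext
    show ((p : ℤ) • x : H).1 = 0
    rw [Submodule.coe_smul, natCast_zsmul]
    exact hp x.1
  haveI : Finite H := Module.finite_of_fg_torsion H htors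
  -- the action of `D` on `H`
  letI : MulAction D H :=
    { smul := fun d x => ⟨ρ d x.1, hHstab d x.1 x.2⟩
      one_smul := fun x => Subtype.ext (by show ρ 1 x.1 = x.1; simp)
      mul_smul := fun d e x => Subtype.ext (by show ρ (d * e) x.1 = ρ d (ρ e x.1); simp [map_mul]) }
  have hsmul : ∀ (d : D) (x : H), ((d • x : H) : W) = ρ d x.1 := fun d x => rfl
  -- `p` divides the cardinality of `H`
  have hcard : p ∣ Nat.card H := by
    have h1 : addOrderOf (⟨w, hwH⟩ : H) = p := by
      apply addOrderOf_eq_prime
      · apply Subtype.ext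
        show (p • (⟨w, hwH⟩ : H)).1 = 0
        rw [Submodule.coe_smul_of_tower]
        exact hp w
      · intro h
        exact hw (congrArg Subtype.val h)
    rw [← h1]
    exact addOrderOf_dvd_natCard _
  have h0 : (0 : H) ∈ fixedPoints D H := by
    intro d
    apply Subtype.ext
    rw [hsmul]
    simp
  obtain ⟨b, hb, hb0⟩ := hD.exists_fixed_point_of_prime_dvd_card_of_fixed_point H hcard h0
  refine ⟨b.1, hHS _ b.2, fun h => hb0 (Subtype.ext h.symm), fun d => ?_⟩
  have := hb d
  exact congrArg Subtype.val this

end FP

end Fermat.Agent.S59.MFree.H565
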